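import Fermat.Agent.LT.T6.H385.DescSpec

/-!
# Row LT, tower T6, leaf T6.18i.6f `ConjSmallC385` (helper886, registry 1428)

OFF-MAIN.  Imports (byte-identical copy): `LT/T6/H385/DescSpec.lean` (helper385@51fcfaf6f,
sha256 ef4c48b7...) with its closure (`QuatSpec`, `T6/Spec` v3, `H783/BadSpec`, `H288/HypSpec`,
`H159/{NormSpec,VanishSpec}`).

**Conjugation by a fixed element is continuous at `1`**: for every `x₀ ∈ GL₂(k')` and every `n`
there is `M'` with `x₀⁻¹ U(M') x₀ ⊂ U(n)`.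

* `conjSmallC886 : H385.ConjSmallC385` (VERBATIM).

Proof.  The entries of `x₀` and of `x₀⁻¹` have valuation `≤ exp B`; `M' = n + 2 B`;
`x₀⁻¹ g x₀ - 1 = x₀⁻¹ (g - 1) x₀` and `(x₀⁻¹ g x₀)⁻¹ - 1 = x₀⁻¹ (g⁻¹ - 1) x₀`, ultrametric
inequality.  Any field with a valuation in `ℤᵐ⁰` (no completeness, no discreteness).
-/

set_option autoImplicit false

open scoped Matrix

noncomputable section

namespace Fermat.Agent.LT.T6.H886

open Fermat.Agent.LT.T6 Fermat.Agent.LT.T6.H385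

/-- Every element of `ℤᵐ⁰` is bounded by `exp B` for some natural number `B`. -/
theorem exists_nat_le_exp886 (γ : Γ₀) : ∃ B : ℕ, γ ≤ WithZero.exp (B : ℤ) := by
  rcases eq_or_ne γ 0 with h | h
  · exact ⟨0, by rw [h]; exact zero_le⟩
  · refine ⟨(WithZero.log γ).toNat, ?_⟩
    calc γ = WithZero.exp (WithZero.log γ) := (WithZero.exp_log h).symm
      _ ≤ WithZero.exp (((WithZero.log γ).toNat : ℕ) : ℤ) :=
        WithZero.exp_le_exp.mpr (Int.self_le_toNat _)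

variable {k : Type} [Field k] [Valued k Γ₀]

/-- The entries of a `2 × 2` matrix are bounded by `exp B` for some natural number `B`. -/
theorem exists_entry_bound886 (A : Matrix (Fin 2) (Fin 2) k) :
    ∃ B : ℕ, ∀ i j : Fin 2, Valued.v (A i j) ≤ WithZero.exp (B : ℤ) := by
  choose b hb using fun p : Fin 2 × Fin 2 => exists_nat_le_exp886 (Valued.v (A p.1 p.2))
  refine ⟨∑ p : Fin 2 × Fin 2, b p, fun i j => (hb (i, j)).trans ?_⟩
  refine WithZero.exp_le_exp.mpr ?_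
  have : b (i, j) ≤ ∑ p : Fin 2 × Fin 2, b p :=
    Finset.single_le_sum (f := b) (fun _ _ => Nat.zero_le _) (Finset.mem_univ (i, j))
  exact_mod_cast this

/-- The ultrametric estimate for a product of three matrices. -/
theorem valued_mul_mul_le886 (X D Y : Matrix (Fin 2) (Fin 2) k) (B M : ℕ)
    (hX : ∀ i j : Fin 2, Valued.v (X i j) ≤ WithZero.exp (B : ℤ))
    (hY : ∀ i j : Fin 2, Valued.v (Y i j) ≤ WithZero.exp (B : ℤ))
    (hD : ∀ i j : Fin 2, Valued.v (D i j) ≤ WithZero.exp (-(M : ℤ))) (i j : Fin 2) :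
    Valued.v ((X * D * Y) i j) ≤ WithZero.exp ((B : ℤ) + -(M : ℤ) + (B : ℤ)) := by
  rw [Matrix.mul_apply]
  refine Valuation.map_sum_le _ fun b _ => ?_
  rw [map_mul, Matrix.mul_apply, WithZero.exp_add]
  refine mul_le_mul' ?_ (hY b j)
  refine Valuation.map_sum_le _ fun a _ => ?_
  rw [map_mul, WithZero.exp_add]
  exact mul_le_mul' (hX i a) (hD a b)

omit [Valued k Γ₀] in
/-- Conjugation and subtraction of `1`. -/
theorem conj_sub_one886 (x g : GL (Fin 2) k) :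
    ((x⁻¹ * g * x : GL (Fin 2) k) : Matrix (Fin 2) (Fin 2) k) - 1
      = ((x⁻¹ : GL (Fin 2) k) : Matrix (Fin 2) (Fin 2) k)
        * ((g : Matrix (Fin 2) (Fin 2) k) - 1) * (x : Matrix (Fin 2) (Fin 2) k) := by
  have h1 : ((x⁻¹ : GL (Fin 2) k) : Matrix (Fin 2) (Fin 2) k) * (x : Matrix (Fin 2) (Fin 2) k)
      = 1 := by
    rw [← Matrix.GeneralLinearGroup.coe_mul, inv_mul_cancel]
    rfl
  rw [Matrix.GeneralLinearGroup.coe_mul, Matrix.GeneralLinearGroup.coe_mul, Matrix.mul_sub,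
    Matrix.sub_mul, Matrix.mul_one, h1]

/-- **Leaf T6.18i.6f** (helper385 `DescSpec.lean`), VERBATIM: conjugation by a fixed element is
continuous at `1`. -/
theorem conjSmallC886 : ConjSmallC385 := by
  intro k' _ _ x₀ n
  obtain ⟨B₁, hB₁⟩ := exists_entry_bound886 (x₀ : Matrix (Fin 2) (Fin 2) k')
  obtain ⟨B₂, hB₂⟩ :=
    exists_entry_bound886 ((x₀⁻¹ : GL (Fin 2) k') : Matrix (Fin 2) (Fin 2) k')
  have hX : ∀ i j : Fin 2, Valued.v (((x₀⁻¹ : GL (Fin 2) k') : Matrix (Fin 2) (Fin 2) k') i j)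
      ≤ WithZero.exp (((B₁ + B₂ : ℕ) : ℕ) : ℤ) := fun i j =>
    (hB₂ i j).trans (WithZero.exp_le_exp.mpr (by push_cast; omega))
  have hY : ∀ i j : Fin 2, Valued.v ((x₀ : Matrix (Fin 2) (Fin 2) k') i j)
      ≤ WithZero.exp (((B₁ + B₂ : ℕ) : ℕ) : ℤ) := fun i j =>
    (hB₁ i j).trans (WithZero.exp_le_exp.mpr (by push_cast; omega))
  refine ⟨n + 2 * (B₁ + B₂), fun g hg => ?_⟩
  have key : ∀ h : GL (Fin 2) k',
      (∀ i j : Fin 2, Valued.v ((h : Matrix (Fin 2) (Fin 2) k') i j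
        - (1 : Matrix (Fin 2) (Fin 2) k') i j)
          ≤ WithZero.exp (-((n + 2 * (B₁ + B₂) : ℕ) : ℤ))) →
      ∀ i j : Fin 2, Valued.v (((x₀⁻¹ * h * x₀ : GL (Fin 2) k') : Matrix (Fin 2) (Fin 2) k') i j
        - (1 : Matrix (Fin 2) (Fin 2) k') i j) ≤ WithZero.exp (-(n : ℤ)) := by
    intro h hh i j
    have e : ((x₀⁻¹ * h * x₀ : GL (Fin 2) k') : Matrix (Fin 2) (Fin 2) k') i j
        - (1 : Matrix (Fin 2) (Fin 2) k') i j
        = (((x₀⁻¹ : GL (Fin 2) k') : Matrix (Fin 2) (Fin 2) k')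
          * ((h : Matrix (Fin 2) (Fin 2) k') - 1) * (x₀ : Matrix (Fin 2) (Fin 2) k')) i j := by
      rw [← conj_sub_one886, Matrix.sub_apply]
    rw [e]
    refine (valued_mul_mul_le886 _ _ _ (B₁ + B₂) (n + 2 * (B₁ + B₂)) hX hY
      (fun a b => by rw [Matrix.sub_apply]; exact hh a b) i j).trans ?_
    refine WithZero.exp_le_exp.mpr ?_
    push_cast
    omega
  intro i j
  refine ⟨key g (fun a b => (hg a b).1) i j, ?_⟩
  have e2 : (x₀⁻¹ * g * x₀)⁻¹ = x₀⁻¹ * g⁻¹ * x₀ := by group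
  rw [e2]
  exact key g⁻¹ (fun a b => (hg a b).2) i j

end Fermat.Agent.LT.T6.H886
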